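import Fermat.Agent.Frobenius.Exists
import Fermat.Prelude.Def_ExtCitation_AdmissibleExtension

/-!
Places of `ℚ̄` (as valuation subrings), conjugacy, inertia, and Minkowski's theorem in the form
"an open normal subgroup of `Gal(ℚ̄/ℚ)` containing all inertia subgroups is everything".
-/

set_option autoImplicit false

namespace FLTAgent.Places

open scoped Pointwise

local notation "QQb" => AlgebraicClosure ℚ
local notation "GG" => (AlgebraicClosure ℚ ≃ₐ[ℚ] AlgebraicClosure ℚ)
local notation "ZB" => integralClosure ℤ (AlgebraicClosure ℚ)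

open FLTAgent.Frobenius (centre mem_centre_iff exists_mul_eq integralClosure_le)

local instance isAlgebraicQQb : Algebra.IsAlgebraic ℚ (AlgebraicClosure ℚ) :=
  AlgebraicClosure.isAlgebraic ℚ

local instance isAlgClosureQQb : IsAlgClosure ℚ (AlgebraicClosure ℚ) :=
  ⟨inferInstance, inferInstance⟩

local instance normalQQb : Normal ℚ (AlgebraicClosure ℚ) := IsAlgClosure.normal ℚ _

local instance isGaloisQQb : IsGalois ℚ (AlgebraicClosure ℚ) where

noncomputable local instance : TopologicalSpace ZB := ⊥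
local instance : DiscreteTopology ZB := ⟨rfl⟩

local instance continuousSMulZB : ContinuousSMul GG ZB := by
  rw [continuousSMul_iff_stabilizer_isOpen]
  intro b
  have : MulAction.stabilizer GG b = MulAction.stabilizer GG (b : QQb) := by
    ext g
    simp only [MulAction.mem_stabilizer_iff, Subtype.ext_iff, integralClosure.coe_smul]
  rw [this]
  exact stabilizer_isOpen_of_isIntegral (b : QQb)

local instance isInvariantZB : Algebra.IsInvariant ℤ ZB GG := ⟨fun b hb => by
  have hbot : (b : QQb) ∈ (⊥ : IntermediateField ℚ QQb) := by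
    rw [InfiniteGalois.mem_bot_iff_fixed]
    intro g
    exact congrArg Subtype.val (hb g)
  obtain ⟨q, hq⟩ := IntermediateField.mem_bot.mp hbot
  have hint : IsIntegral ℤ q :=
    (isIntegral_algebraMap_iff (algebraMap ℚ QQb).injective).mp (hq ▸ b.2)
  obtain ⟨z, hz⟩ := IsIntegrallyClosed.isIntegral_iff.mp hint
  refine ⟨z, Subtype.ext ?_⟩
  rw [Subalgebra.coe_algebraMap, ← hq, ← hz, ← IsScalarTower.algebraMap_apply]⟩

variable (V : ValuationSubring (AlgebraicClosure ℚ))

lemma notMem_nonunits_iff_of_mem {x : QQb} (_hx : x ∈ V) :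
    x ∉ V.nonunits ↔ x ≠ 0 ∧ x⁻¹ ∈ V := by
  rw [ValuationSubring.mem_nonunits_iff_or]
  push Not
  rfl

lemma mem_iff_exists_mul_eq {x : QQb} :
    x ∈ V ↔ ∃ s b : ZB, s ∉ centre V ∧ (s : QQb) * x = b := by
  refine ⟨exists_mul_eq V, fun ⟨s, b, hs, hsb⟩ ↦ ?_⟩
  obtain ⟨hs0, hsi⟩ :=
    (notMem_nonunits_iff_of_mem V (integralClosure_le V s)).mp (mt (mem_centre_iff V).mpr hs)
  rw [show x = (s : QQb)⁻¹ * b by rw [← hsb, inv_mul_cancel_left₀ hs0]]
  exact V.mul_mem _ _ hsi (integralClosure_le V b)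

/-- A place is determined by its centre. -/
lemma eq_of_centre_eq {V W : ValuationSubring QQb} (h : centre V = centre W) : V = W := by
  ext x
  rw [mem_iff_exists_mul_eq, mem_iff_exists_mul_eq, h]

lemma mem_smul_nonunits_iff (g : GG) {x : QQb} :
    x ∈ (g • V).nonunits ↔ g⁻¹ • x ∈ V.nonunits := by
  simp [ValuationSubring.mem_nonunits_iff_or, ValuationSubring.mem_pointwise_smul_iff_inv_smul_mem]

lemma centre_smul (g : GG) : centre (g • V) = g • centre V := by
  ext b
  rw [Ideal.mem_pointwise_smul_iff_inv_smul_mem, mem_centre_iff, mem_centre_iff,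
    mem_smul_nonunits_iff]
  rfl

lemma natCast_mem_centre {ℓ : ℕ} (h : V.LiesOverPrime ℓ) : (ℓ : ZB) ∈ centre V :=
  (mem_centre_iff V).mpr (by simpa [ValuationSubring.LiesOverPrime] using h)

lemma under_int_eq {Q : Ideal ZB} [Q.IsPrime] {ℓ : ℕ} (hℓ : ℓ.Prime) (h : (ℓ : ZB) ∈ Q) :
    Q.under ℤ = Ideal.span {(ℓ : ℤ)} := by
  have hmax : (Ideal.span {(ℓ : ℤ)}).IsMaximal :=
    PrincipalIdealRing.isMaximal_of_irreducible (Nat.prime_iff_prime_int.mp hℓ).irreducible
  refine (hmax.eq_of_le (Ideal.IsPrime.under ℤ Q).ne_top ?_).symm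
  rw [Ideal.span_le, Set.singleton_subset_iff, SetLike.mem_coe, Ideal.mem_comap, map_natCast]
  exact h

/-- Any prime of the algebraic integers over `ℓ` is the centre of a conjugate of `V`. -/
lemma exists_centre_smul_eq {ℓ : ℕ} (hℓ : ℓ.Prime) (hV : V.LiesOverPrime ℓ) (Q : Ideal ZB)
    [Q.IsPrime] (hQ : (ℓ : ZB) ∈ Q) : ∃ g : GG, centre (g • V) = Q := by
  obtain ⟨g, hg⟩ := Algebra.IsInvariant.exists_smul_of_under_eq_of_profinite (A := ℤ) (G := GG)
    (centre V) Q (by rw [under_int_eq hℓ (natCast_mem_centre V hV), under_int_eq hℓ hQ])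
  exact ⟨g, by rw [centre_smul, ← hg]⟩

/-- All places over a prime are conjugate. -/
lemma exists_smul_eq {ℓ : ℕ} (hℓ : ℓ.Prime) {V W : ValuationSubring QQb}
    (hV : V.LiesOverPrime ℓ) (hW : W.LiesOverPrime ℓ) : ∃ g : GG, g • V = W := by
  obtain ⟨g, hg⟩ := exists_centre_smul_eq V hℓ hV (centre W) (natCast_mem_centre W hW)
  exact ⟨g, eq_of_centre_eq hg⟩

lemma liesOverPrime_smul {ℓ : ℕ} (g : GG) (hV : V.LiesOverPrime ℓ) :
    (g • V).LiesOverPrime ℓ := by
  rw [ValuationSubring.LiesOverPrime, mem_smul_nonunits_iff]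
  simpa [ValuationSubring.LiesOverPrime] using hV

lemma smul_mem_of_decomposition {σ : GG} (hσ : σ ∈ V.decompositionSubgroup ℚ) {x : QQb}
    (hx : x ∈ V) : σ x ∈ V := by
  have h := ValuationSubring.smul_mem_pointwise_smul σ x V hx
  rwa [MulAction.mem_stabilizer_iff.mp hσ] at h

/-- The inertia subgroup, described elementwise. -/
lemma mem_inertia_iff {σ : GG} :
    σ ∈ V.inertiaSubgroupIn ℚ ↔
      σ ∈ V.decompositionSubgroup ℚ ∧ ∀ x ∈ V, σ x - x ∈ V.nonunits := by
  constructor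
  · rintro ⟨τ, hτ, rfl⟩
    refine ⟨τ.2, fun x hx ↦ ?_⟩
    have h := RingEquiv.congr_fun hτ (IsLocalRing.residue V ⟨x, hx⟩)
    change IsLocalRing.residue V (τ • ⟨x, hx⟩) = IsLocalRing.residue V ⟨x, hx⟩ at h
    rw [← sub_eq_zero, ← map_sub, IsLocalRing.residue_eq_zero_iff,
      ← ValuationSubring.coe_mem_nonunits_iff] at h
    exact h
  · rintro ⟨hσ, h⟩
    refine ⟨⟨σ, hσ⟩, ?_, rfl⟩
    refine RingEquiv.ext fun x ↦ ?_
    obtain ⟨x, rfl⟩ := IsLocalRing.residue_surjective x
    change IsLocalRing.residue V ((⟨σ, hσ⟩ : V.decompositionSubgroup ℚ) • x) = IsLocalRing.residue V x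
    rw [← sub_eq_zero, ← map_sub, IsLocalRing.residue_eq_zero_iff,
      ← ValuationSubring.coe_mem_nonunits_iff]
    exact h x.1 x.2

lemma inertia_le_decomposition : V.inertiaSubgroupIn ℚ ≤ V.decompositionSubgroup ℚ :=
  fun _ h ↦ ((mem_inertia_iff V).mp h).1

lemma conj_mem_inertia {σ : GG} (hσ : σ ∈ V.inertiaSubgroupIn ℚ) (g : GG) :
    g * σ * g⁻¹ ∈ (g • V).inertiaSubgroupIn ℚ := by
  rw [mem_inertia_iff] at hσ ⊢
  refine ⟨?_, fun x hx ↦ ?_⟩
  · rw [MulAction.mem_stabilizer_iff, smul_smul, inv_mul_cancel_right, mul_smul,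
      MulAction.mem_stabilizer_iff.mp hσ.1]
  · rw [mem_smul_nonunits_iff, smul_sub, show (g * σ * g⁻¹) x = g • σ • g⁻¹ • x from rfl,
      inv_smul_smul]
    exact hσ.2 _ (ValuationSubring.mem_pointwise_smul_iff_inv_smul_mem.mp hx)

/-- An element of the stabiliser of the centre that acts trivially modulo the centre is inertial. -/
lemma mem_inertia_of_centre {σ : GG} (hst : σ • centre V = centre V)
    (h : ∀ b : ZB, σ • b - b ∈ centre V) : σ ∈ V.inertiaSubgroupIn ℚ := by
  have hdec : σ • V = V := eq_of_centre_eq (by rw [centre_smul, hst])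
  rw [mem_inertia_iff]
  refine ⟨MulAction.mem_stabilizer_iff.mpr hdec, fun x hx ↦ ?_⟩
  obtain ⟨s, b, hs, hsb⟩ := exists_mul_eq V hx
  obtain ⟨hs0, hsi⟩ :=
    (notMem_nonunits_iff_of_mem V (integralClosure_le V s)).mp (mt (mem_centre_iff V).mpr hs)
  have hσx := smul_mem_of_decomposition V (MulAction.mem_stabilizer_iff.mpr hdec) hx
  have e : σ (s : QQb) * σ x = σ (b : QQb) := by rw [← map_mul, hsb]
  have hb : (σ (b : QQb) - b) ∈ V.nonunits := (mem_centre_iff V).mp (h b)
  have hsd : (σ (s : QQb) - s) ∈ V.nonunits := (mem_centre_iff V).mp (h s)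
  have hmul : ∀ {u v : QQb}, u ∈ V.nonunits → v ∈ V → u * v ∈ V.nonunits := by
    intro u v hu hv
    rw [← SetLike.mem_coe, ← ValuationSubring.image_maximalIdeal] at hu ⊢
    obtain ⟨u', hu', rfl⟩ := hu
    exact ⟨u' * ⟨v, hv⟩, Ideal.mul_mem_right _ _ hu', rfl⟩
  have : σ x - x = ((σ (b : QQb) - b) - (σ (s : QQb) - s) * σ x) * (s : QQb)⁻¹ := by
    rw [← e, ← hsb]
    field_simp
    ring
  rw [this]
  exact hmul (V.nonunits.toAddSubgroup.sub_mem hb (hmul hsd hσx)) hsi

/-- Lifting lemma: an element congruent to the identity on `H`-invariant integers differs from an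
inertial element by an element of `H`. -/
theorem exists_mul_mem_inertia (H : Subgroup GG) [hn : H.Normal] (hclosed : IsClosed (H : Set GG))
    (g : GG)
    (hcong : ∀ b : FixedPoints.subalgebra ℤ ZB H, g • (b : ZB) - b ∈ centre V) :
    ∃ h ∈ H, h * g ∈ V.inertiaSubgroupIn ℚ := by
  let B₀ := FixedPoints.subalgebra ℤ ZB H
  have : Algebra.IsInvariant B₀ ZB H := ⟨fun b hb ↦ ⟨⟨b, hb⟩, rfl⟩⟩
  have : CompactSpace H := isCompact_iff_compactSpace.mp hclosed.isCompact
  have hsmulC : SMulCommClass H B₀ ZB := ⟨fun k b x ↦ by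
    change k • ((b : ZB) * x) = (b : ZB) * k • x
    rw [smul_mul', b.2 k]⟩
  have hcont : ContinuousSMul H ZB :=
    ⟨(continuous_smul (M := GG) (X := ZB)).comp
      ((continuous_subtype_val.comp continuous_fst).prodMk continuous_snd)⟩
  have hinvar : ∀ (b : B₀) (a : GG), a • (b : ZB) ∈ B₀ := by
    intro b a k
    have hk : a⁻¹ * (k : GG) * a ∈ H := by simpa using hn.conj_mem _ k.2 a⁻¹
    have h1 : (a⁻¹ * (k : GG) * a) • (b : ZB) = (b : ZB) := b.2 ⟨_, hk⟩
    change (k : GG) • a • (b : ZB) = a • (b : ZB)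
    conv_rhs => rw [← h1]
    simp only [← mul_smul]
    congr 1
    group
  have hdiff : ∀ b : B₀, (b : ZB) ∈ g • centre V ↔ (b : ZB) ∈ centre V := by
    intro b
    rw [Ideal.mem_pointwise_smul_iff_inv_smul_mem]
    have h1 : (b : ZB) - g⁻¹ • (b : ZB) ∈ centre V := by
      have := hcong ⟨_, hinvar b g⁻¹⟩
      rwa [show g • g⁻¹ • (b : ZB) = b from smul_inv_smul g _] at this
    exact ⟨fun hb ↦ by simpa using add_mem h1 hb, fun hb ↦ by simpa using sub_mem hb h1⟩
  obtain ⟨k, hk⟩ := Algebra.IsInvariant.exists_smul_of_under_eq_of_profinite (A := B₀) (G := H)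
    (g • centre V) (centre V) (by ext b; exact hdiff b)
  have hσst : ((k : GG) * g) • centre V = centre V := by rw [mul_smul]; exact hk.symm
  have hσcong : ∀ b : B₀, ((k : GG) * g) • (b : ZB) - b ∈ centre V := by
    intro b
    have hmem : g • (b : ZB) - b ∈ g • centre V :=
      (hdiff ⟨_, B₀.sub_mem (hinvar b g) b.2⟩).mpr (hcong b)
    have h1 := Ideal.smul_mem_pointwise_smul (k : GG) _ _ hmem
    rw [smul_sub, ← mul_smul, ← mul_smul, show (k : GG) • (b : ZB) = b from b.2 k, hσst] at h1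
    exact h1
  generalize hσ : (k : GG) * g = σ at hσst hσcong
  let P₀ : Ideal B₀ := (centre V).under B₀
  have : (centre V).LiesOver P₀ := ⟨rfl⟩
  let φ : ZB ≃+* ZB := MulSemiringAction.toRingEquiv GG ZB σ
  have hmap : centre V = Ideal.map (φ : ZB →+* ZB) (centre V) := hσst.symm
  let e : (ZB ⧸ centre V) ≃ₐ[B₀ ⧸ P₀] (ZB ⧸ centre V) :=
    AlgEquiv.ofRingEquiv (f := Ideal.quotientEquiv _ _ φ hmap) (by
      intro q
      obtain ⟨b, rfl⟩ := Ideal.Quotient.mk_surjective q
      change Ideal.Quotient.mk (centre V) (σ • (b : ZB)) = Ideal.Quotient.mk (centre V) (b : ZB)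
      rw [Ideal.Quotient.eq]
      exact hσcong b)
  obtain ⟨⟨k', hk'st⟩, hk'⟩ :=
    Ideal.Quotient.stabilizerHom_surjective_of_profinite (G := H) P₀ (centre V) e
  have hst' : (k' : GG)⁻¹ • centre V = centre V :=
    inv_smul_eq_iff.mpr (MulAction.mem_stabilizer_iff.mp hk'st).symm
  refine ⟨(k' : GG)⁻¹ * k, H.mul_mem (H.inv_mem k'.2) k.2, ?_⟩
  rw [mul_assoc, hσ]
  refine mem_inertia_of_centre V ?_ fun b ↦ ?_
  · rw [mul_smul, hσst, hst']
  · have h1 := DFunLike.congr_fun hk' (Ideal.Quotient.mk (centre V) b)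
    change Ideal.Quotient.mk (centre V) ((k' : GG) • b) =
      Ideal.Quotient.mk (centre V) (σ • b) at h1
    rw [Ideal.Quotient.eq] at h1
    have h2 := Ideal.smul_mem_pointwise_smul (k' : GG)⁻¹ _ _ h1
    rw [smul_sub, inv_smul_smul, ← mul_smul, hst'] at h2
    have h3 := (centre V).neg_mem h2
    rwa [neg_sub] at h3

/-- **Minkowski**: an open normal subgroup of `Gal(ℚ̄/ℚ)` containing all inertia subgroups is
the whole group. -/
theorem eq_top_of_forall_inertia_le (H : Subgroup GG) [hn : H.Normal] (hH : IsOpen (H : Set GG))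
    (h : ∀ ℓ : ℕ, ℓ.Prime → ∀ V : ValuationSubring QQb, V.LiesOverPrime ℓ →
      V.inertiaSubgroupIn ℚ ≤ H) : H = ⊤ := by
  have hclosed : IsClosed (H : Set GG) := Subgroup.isClosed_of_isOpen _ hH
  let L := IntermediateField.fixedField H
  have hfix : L.fixingSubgroup = H :=
    InfiniteGalois.fixingSubgroup_fixedField ⟨H, hclosed⟩
  have hfin : FiniteDimensional ℚ L := (InfiniteGalois.isOpen_iff_finite L).mp (by
    rw [hfix]; exact hH)
  have hgal : IsGalois ℚ L := (InfiniteGalois.normal_iff_isGalois L).mp (by rw [hfix]; exact hn)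
  by_contra hne
  have hL : L ≠ ⊥ := fun hbot ↦ hne (by rw [← hfix, hbot, IntermediateField.fixingSubgroup_bot])
  have : NumberField L := { to_charZero := inferInstance, to_finiteDimensional := hfin }
  have hrank : 1 < Module.finrank ℚ L := by
    have h0 : 0 < Module.finrank ℚ L := Module.finrank_pos
    have h1 : Module.finrank ℚ L ≠ 1 := fun h1 ↦ hL (IntermediateField.finrank_eq_one_iff.mp h1)
    omega
  obtain ⟨ℓ, hℓ, hram⟩ :=
    NumberField.exists_not_isUnramifiedAt_int_of_isGalois (𝒪 := NumberField.RingOfIntegers L) hrank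
  obtain ⟨V, hV⟩ := FLTAgent.Frobenius.exists_liesOverPrime ℓ hℓ
  let ι : NumberField.RingOfIntegers L →+* ZB :=
    ((algebraMap L QQb).comp (algebraMap (NumberField.RingOfIntegers L) L)).codRestrict
      (ZB).toSubring fun c ↦ c.2.algebraMap
  let P : Ideal (NumberField.RingOfIntegers L) := (centre V).comap ι
  have : P.IsPrime := Ideal.IsPrime.comap _
  have hℓP : (ℓ : NumberField.RingOfIntegers L) ∈ P := by
    rw [Ideal.mem_comap, map_natCast]
    exact natCast_mem_centre V hV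
  have hP := hram P inferInstance hℓP
  -- nontrivial inertia at `P`
  let : MulSemiringAction Gal(L/ℚ) (NumberField.RingOfIntegers L) :=
    IsIntegralClosure.MulSemiringAction ℤ ℚ L _
  have := IsIntegralClosure.isFractionRing_of_finite_extension ℤ ℚ L (NumberField.RingOfIntegers L)
  have := IsIntegralClosure.finite ℤ ℚ L (NumberField.RingOfIntegers L)
  have := IsIntegralClosure.isDedekindDomain ℤ ℚ L (NumberField.RingOfIntegers L)
  have := IsGaloisGroup.of_isFractionRing Gal(L/ℚ) ℤ (NumberField.RingOfIntegers L) ℚ L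
  have hPbot : P ≠ ⊥ := fun hb ↦ by
    rw [hb, Ideal.mem_bot, Nat.cast_eq_zero] at hℓP
    exact hℓ.ne_zero hℓP
  have hcard : Nat.card (P.inertia Gal(L/ℚ)) ≠ 1 := by
    have hu : (P.under ℤ).IsMaximal := by
      have : P.IsMaximal := Ideal.IsPrime.isMaximal inferInstance hPbot
      infer_instance
    rw [Ideal.card_inertia_eq_ramificationIdxIn (G := Gal(L/ℚ)) (P.under ℤ) P,
      Ideal.ramificationIdxIn_eq_ramificationIdx (P.under ℤ) P Gal(L/ℚ)]
    exact fun h1 ↦ hP ((Ideal.ramificationIdx_eq_one_iff).mp h1)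
  obtain ⟨⟨τ, hτ⟩, hτ1⟩ : ∃ τ : P.inertia Gal(L/ℚ), τ ≠ 1 := by
    by_contra hall
    push Not at hall
    exact hcard (Nat.card_eq_one_iff_unique.mpr ⟨⟨fun a b ↦ by rw [hall a, hall b]⟩, ⟨1⟩⟩)
  -- a lift which is congruent to the identity on `H`-invariant integers
  obtain ⟨g, hg⟩ := AlgEquiv.restrictNormalHom_surjective QQb (K₁ := L) τ
  have hgH : g ∉ H := fun hgH ↦ hτ1 <| Subtype.ext <| by
    have : g ∈ L.fixingSubgroup := hfix ▸ hgH
    change τ = 1
    rw [← hg]
    refine AlgEquiv.ext fun x ↦ Subtype.ext ?_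
    change ((AlgEquiv.restrictNormalHom L g x : L) : QQb) = x
    refine (AlgEquiv.restrictNormalHom_apply L g x).trans ?_
    exact (IntermediateField.mem_fixingSubgroup_iff _ _).mp this x x.2
  have hcong : ∀ b : FixedPoints.subalgebra ℤ ZB H, g • (b : ZB) - b ∈ centre V := by
    intro b
    have hmem : ((b : ZB) : QQb) ∈ L := fun k ↦ congrArg Subtype.val (b.2 k)
    have hint : IsIntegral ℤ (⟨_, hmem⟩ : L) :=
      (isIntegral_algebraMap_iff (algebraMap L QQb).injective).mp (b : ZB).2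
    let c : NumberField.RingOfIntegers L := ⟨⟨_, hmem⟩, hint⟩
    have hc : τ • c - c ∈ P := hτ c
    rw [Ideal.mem_comap, map_sub] at hc
    have e2 : ι (τ • c) = g • (b : ZB) := Subtype.ext <| by
      change (((τ • c : NumberField.RingOfIntegers L) : L) : QQb) = g ((b : ZB) : QQb)
      rw [← hg, show (((AlgEquiv.restrictNormalHom L g) • c : NumberField.RingOfIntegers L) : L) =
        AlgEquiv.restrictNormalHom L g (c : L) from
          algebraMap_galRestrict_apply ℤ (AlgEquiv.restrictNormalHom L g) c]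
      exact AlgEquiv.restrictNormalHom_apply L g _
    rw [e2] at hc
    exact hc
  obtain ⟨k, hk, hkI⟩ := exists_mul_mem_inertia V H hclosed g hcong
  exact hgH (by simpa using H.mul_mem (H.inv_mem hk) (h ℓ hℓ V hV hkI))

end FLTAgent.Places
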